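/-
GATE-J / J4-CYC (helper8): the cyclotomic character at Frobenius lifts and on inertia, in the
prelude's `G_ℚ` language (`ValuationSubring (AlgebraicClosure ℚ)`, `LiesOverPrime`, `IsFrobeniusAt`,
`inertiaSubgroupIn`).

Main results (`Qb = AlgebraicClosure ℚ`, `A` a valuation subring of `Qb` over the prime `l`):
* `frob_rootOfUnity`: a Frobenius lift `σ` at `A` raises every root of unity of order prime to `l`
  to the `l`-th power;
* `inertia_rootOfUnity`: inertia at `A` fixes every root of unity of order prime to `l`;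
* `cycloChar_frob`, `cycloChar_inertia`: the prelude's mod `p` cyclotomic character `cycloChar p`
  has value `l` on Frobenius lifts at `l ≠ p` and is trivial on inertia at `l ≠ p`;
* `cycloChar_eq_one_of_fixes`: `cycloChar p σ = 1` as soon as `σ` fixes one primitive `p`-th root of
  unity (finite level).
-/
import Mathlib
import Fermat.Prelude.Def_ExtCitation_KummerBridge
import Fermat.Prelude.Def_EllipticCurve_FrobeniusTrace

set_option autoImplicit false

namespace Fermat.Agent.GJ.Cyc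

open ExtCitation

section Val

variable {L : Type*} [Field L] (A : ValuationSubring L)

/-- an integer is in `A` -/
lemma valuation_intCast_le_one (a : ℤ) : A.valuation (a : L) ≤ 1 :=
  (A.valuation_le_one_iff _).mpr (intCast_mem A a)

/-- if `l` is a non-unit of `A` and `l ∤ m` then `m` is a unit of `A` -/
lemma valuation_natCast_eq_one_of_not_dvd {l : ℕ} (hl : l.Prime) (hA : (l : L) ∈ A.nonunits)
    {m : ℕ} (hm : ¬ l ∣ m) : ¬ A.valuation (m : L) < 1 := by
  intro hlt
  have hcop : IsCoprime (m : ℤ) (l : ℤ) := by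
    rw [Int.isCoprime_iff_gcd_eq_one, Int.gcd_natCast_natCast, Nat.gcd_comm]
    exact (Nat.Prime.coprime_iff_not_dvd hl).mpr hm
  obtain ⟨a, b, hab⟩ := hcop
  have h1 : (a : L) * (m : L) + (b : L) * (l : L) = 1 := by exact_mod_cast congrArg (Int.cast : ℤ → L) hab
  have hl' : A.valuation (l : L) < 1 := (A.mem_nonunits_iff).mp hA
  have ha : A.valuation ((a : L) * (m : L)) < 1 := by
    rw [map_mul]
    exact mul_lt_one_of_nonneg_of_lt_one_right (valuation_intCast_le_one A a) zero_le' hlt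
  have hb : A.valuation ((b : L) * (l : L)) < 1 := by
    rw [map_mul]
    exact mul_lt_one_of_nonneg_of_lt_one_right (valuation_intCast_le_one A b) zero_le' hl'
  have := A.valuation.map_add_lt ha hb
  rw [h1, map_one] at this
  exact lt_irrefl _ this

/-- a root of unity of order prime to the residue characteristic which is `≡ 1` is `1` -/
lemma eq_one_of_pow_eq_one_of_valuation_sub_one_lt {l : ℕ} (hl : l.Prime)
    (hA : (l : L) ∈ A.nonunits) {m : ℕ} (hm : ¬ l ∣ m) (η : L) (hη : η ^ m = 1)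
    (h1 : A.valuation (η - 1) < 1) : η = 1 := by
  by_contra hne
  have hsum : ∑ i ∈ Finset.range m, η ^ i = 0 := by
    have h := geom_sum_mul η m
    rw [hη, sub_self] at h
    rcases mul_eq_zero.mp h with h | h
    · exact h
    · exact absurd (sub_eq_zero.mp h) hne
  have hη1 : A.valuation η ≤ 1 := by
    have : η = (η - 1) + 1 := by ring
    rw [this]
    exact le_trans (A.valuation.map_add _ _) (max_le h1.le (by rw [map_one]))
  have hterm : ∀ i ∈ Finset.range m, A.valuation (η ^ i - 1) < 1 := by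
    intro i _
    have h := geom_sum_mul η i
    rw [← h, map_mul]
    refine mul_lt_one_of_nonneg_of_lt_one_right ?_ zero_le' h1
    refine A.valuation.map_sum_le (fun j _ => ?_)
    rw [map_pow]
    exact pow_le_one' hη1 j
  have hm' : A.valuation (m : L) < 1 := by
    have h2 : (m : L) = -∑ i ∈ Finset.range m, (η ^ i - 1) := by
      rw [Finset.sum_sub_distrib, hsum]
      simp
    rw [h2, Valuation.map_neg]
    exact A.valuation.map_sum_lt one_ne_zero hterm
  exact valuation_natCast_eq_one_of_not_dvd A hl hA hm hm'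

/-- two roots of unity of order prime to the residue characteristic which are congruent are equal -/
lemma eq_of_pow_eq_one_of_valuation_sub_lt {l : ℕ} (hl : l.Prime)
    (hA : (l : L) ∈ A.nonunits) {m : ℕ} (hm : ¬ l ∣ m) (α β : L) (hα : α ^ m = 1) (hβ : β ^ m = 1)
    (h1 : A.valuation (α - β) < 1) : α = β := by
  have hm0 : m ≠ 0 := fun h => hm (h ▸ dvd_zero l)
  have hβ0 : β ≠ 0 := by
    rintro rfl
    rw [zero_pow hm0] at hβ
    exact zero_ne_one hβ
  have hvβ : A.valuation β = 1 := by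
    have : A.valuation β ^ m = 1 := by rw [← map_pow, hβ, map_one]
    rcases pow_eq_one_iff.mp this with h | h
    · exact h
    · exact absurd h hm0
  have h2 : α / β = 1 := by
    refine eq_one_of_pow_eq_one_of_valuation_sub_one_lt A hl hA hm (α / β) ?_ ?_
    · rw [div_pow, hα, hβ, div_one]
    · have : α / β - 1 = (α - β) / β := by field_simp
      rw [this, map_div₀, hvβ, div_one]
      exact h1
  exact (div_eq_one_iff_eq hβ0).mp h2

/-- a root of unity lies in every valuation subring -/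
lemma mem_of_pow_eq_one {m : ℕ} (hm0 : m ≠ 0) (ζ : L) (hζ : ζ ^ m = 1) : ζ ∈ A := by
  rw [← A.valuation_le_one_iff]
  have : A.valuation ζ ^ m = 1 := by rw [← map_pow, hζ, map_one]
  rcases pow_eq_one_iff.mp this with h | h
  · exact h.le
  · exact absurd h hm0

end Val

section Frob

variable (A : ValuationSubring (AlgebraicClosure ℚ)) (l : ℕ)

/-- **(CYC1)** a Frobenius lift at `A` over `l` raises roots of unity of order prime to `l` to the
`l`-th power. -/
theorem frob_rootOfUnity (hl : l.Prime) (hA : A.LiesOverPrime l) (σ : (AlgebraicClosure ℚ) ≃ₐ[ℚ] (AlgebraicClosure ℚ))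
    (hσ : A.IsFrobeniusAt σ l) (m : ℕ) (hm : ¬ l ∣ m) (ζ : (AlgebraicClosure ℚ)) (hζ : ζ ^ m = 1) :
    σ ζ = ζ ^ l := by
  have hm0 : m ≠ 0 := fun h => hm (h ▸ dvd_zero l)
  obtain ⟨hσd, hfr⟩ := hσ
  have hζA : ζ ∈ A := mem_of_pow_eq_one A hm0 ζ hζ
  have h := hfr (IsLocalRing.residue A ⟨ζ, hζA⟩)
  rw [← IsLocalRing.ResidueField.residue_smul, ← map_pow, ← sub_eq_zero, ← map_sub,
    IsLocalRing.residue_eq_zero_iff, A.valuation_lt_one_iff] at h
  have h' : A.valuation (σ ζ - ζ ^ l) < 1 := h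
  refine eq_of_pow_eq_one_of_valuation_sub_lt A hl hA hm (σ ζ) (ζ ^ l) ?_ ?_ h'
  · rw [← map_pow, hζ, map_one]
  · rw [← pow_mul, mul_comm, pow_mul, hζ, one_pow]

/-- **(CYC3)** inertia at `A` over `l` fixes the roots of unity of order prime to `l`. -/
theorem inertia_rootOfUnity (hl : l.Prime) (hA : A.LiesOverPrime l) (σ : (AlgebraicClosure ℚ) ≃ₐ[ℚ] (AlgebraicClosure ℚ))
    (hσ : σ ∈ A.inertiaSubgroupIn ℚ) (m : ℕ) (hm : ¬ l ∣ m) (ζ : (AlgebraicClosure ℚ)) (hζ : ζ ^ m = 1) :
    σ ζ = ζ := by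
  have hm0 : m ≠ 0 := fun h => hm (h ▸ dvd_zero l)
  obtain ⟨τ, hτ, rfl⟩ := hσ
  have hζA : ζ ∈ A := mem_of_pow_eq_one A hm0 ζ hζ
  have hτ' : MulSemiringAction.toRingAut (A.decompositionSubgroup ℚ) (IsLocalRing.ResidueField A) τ
      = 1 := hτ
  have h : τ • (IsLocalRing.residue A ⟨ζ, hζA⟩) = IsLocalRing.residue A ⟨ζ, hζA⟩ := by
    have := congrArg (fun f : RingAut (IsLocalRing.ResidueField A) =>
      f (IsLocalRing.residue A ⟨ζ, hζA⟩)) hτ'
    simpa using this
  rw [← IsLocalRing.ResidueField.residue_smul, ← sub_eq_zero, ← map_sub,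
    IsLocalRing.residue_eq_zero_iff, A.valuation_lt_one_iff] at h
  have h' : A.valuation ((τ : (AlgebraicClosure ℚ) ≃ₐ[ℚ] (AlgebraicClosure ℚ)) ζ - ζ) < 1 := h
  exact eq_of_pow_eq_one_of_valuation_sub_lt A hl hA hm _ ζ
    (by rw [← map_pow, hζ, map_one]) hζ h'

end Frob

section CycloChar

variable (p : ℕ) [Fact p.Prime]

/-- the defining property of the prelude's `cycloChar` -/
theorem cycloChar_spec (σ : (AlgebraicClosure ℚ) ≃ₐ[ℚ] (AlgebraicClosure ℚ)) (ζ : (AlgebraicClosure ℚ)) (hζ : ζ ^ p = 1) :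
    σ ζ = ζ ^ ((cycloChar p σ : (ZMod p)ˣ) : ZMod p).val := by
  haveI : NeZero p := ⟨(Fact.out : p.Prime).ne_zero⟩
  have hζ0 : ζ ≠ 0 := by
    rintro rfl
    rw [zero_pow (NeZero.ne p)] at hζ
    exact zero_ne_one hζ
  have hmem : Units.mk0 ζ hζ0 ∈ rootsOfUnity p (AlgebraicClosure ℚ) := by
    rw [mem_rootsOfUnity]
    ext
    simpa using hζ
  have h := modularCyclotomicCharacter.spec (AlgebraicClosure ℚ) (card_rootsOfUnity_eq_self p)
    (σ : (AlgebraicClosure ℚ) ≃+* (AlgebraicClosure ℚ)) hmem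
  have e : cycloChar p σ = modularCyclotomicCharacter (AlgebraicClosure ℚ) (card_rootsOfUnity_eq_self p)
      (σ : (AlgebraicClosure ℚ) ≃+* (AlgebraicClosure ℚ)) := rfl
  rw [e]
  simpa using h

/-- uniqueness: if `σ ζ = ζ ^ c` for all `p`-th roots of unity then `cycloChar p σ = c` -/
theorem cycloChar_eq_of_forall (σ : (AlgebraicClosure ℚ) ≃ₐ[ℚ] (AlgebraicClosure ℚ)) (c : ℕ)
    (h : ∀ ζ : (AlgebraicClosure ℚ), ζ ^ p = 1 → σ ζ = ζ ^ c) :
    ((cycloChar p σ : (ZMod p)ˣ) : ZMod p) = (c : ZMod p) := by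
  haveI : NeZero p := ⟨(Fact.out : p.Prime).ne_zero⟩
  have e : cycloChar p σ = modularCyclotomicCharacter (AlgebraicClosure ℚ) (card_rootsOfUnity_eq_self p)
      (σ : (AlgebraicClosure ℚ) ≃+* (AlgebraicClosure ℚ)) := rfl
  have hu := modularCyclotomicCharacter.unique (AlgebraicClosure ℚ) (card_rootsOfUnity_eq_self p)
    (σ : (AlgebraicClosure ℚ) ≃+* (AlgebraicClosure ℚ)) (c := (c : ZMod p)) ?_
  · rw [e]
    exact hu.symm
  · intro t ht
    have ht' : (t : (AlgebraicClosure ℚ)) ^ p = 1 := by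
      have := (mem_rootsOfUnity _ _).mp ht
      rw [← Units.val_pow_eq_pow_val, this, Units.val_one]
    have h1 := h (t : (AlgebraicClosure ℚ)) ht'
    have h2 : (t : (AlgebraicClosure ℚ)) ^ (c : ZMod p).val = (t : (AlgebraicClosure ℚ)) ^ c := by
      rw [ZMod.val_natCast]
      conv_rhs => rw [← Nat.mod_add_div c p]
      rw [pow_add, pow_mul, ht', one_pow, mul_one]
    rw [h2]
    exact h1

/-- **(CYC2)** the mod `p` cyclotomic character has value `l` at Frobenius lifts at `l ≠ p`. -/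
theorem cycloChar_frob (A : ValuationSubring (AlgebraicClosure ℚ)) (l : ℕ) (hl : l.Prime) (hA : A.LiesOverPrime l)
    (hlp : l ≠ p) (σ : (AlgebraicClosure ℚ) ≃ₐ[ℚ] (AlgebraicClosure ℚ)) (hσ : A.IsFrobeniusAt σ l) :
    ((cycloChar p σ : (ZMod p)ˣ) : ZMod p) = (l : ZMod p) := by
  refine cycloChar_eq_of_forall p σ l (fun ζ hζ => ?_)
  refine frob_rootOfUnity A l hl hA σ hσ p ?_ ζ hζ
  intro hdvd
  exact hlp ((Nat.prime_dvd_prime_iff_eq hl (Fact.out : p.Prime)).mp hdvd)

/-- **(CYC3')** the mod `p` cyclotomic character is trivial on inertia at `l ≠ p`. -/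
theorem cycloChar_inertia (A : ValuationSubring (AlgebraicClosure ℚ)) (l : ℕ) (hl : l.Prime) (hA : A.LiesOverPrime l)
    (hlp : l ≠ p) (σ : (AlgebraicClosure ℚ) ≃ₐ[ℚ] (AlgebraicClosure ℚ)) (hσ : σ ∈ A.inertiaSubgroupIn ℚ) :
    cycloChar p σ = 1 := by
  have h : ((cycloChar p σ : (ZMod p)ˣ) : ZMod p) = ((1 : ℕ) : ZMod p) := by
    refine cycloChar_eq_of_forall p σ 1 (fun ζ hζ => ?_)
    rw [pow_one]
    refine inertia_rootOfUnity A l hl hA σ hσ p ?_ ζ hζ
    intro hdvd
    exact hlp ((Nat.prime_dvd_prime_iff_eq hl (Fact.out : p.Prime)).mp hdvd)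
  ext
  simpa using h

/-- **(CYC4)** finite level: `cycloChar p σ = 1` if `σ` fixes a primitive `p`-th root of unity. -/
theorem cycloChar_eq_one_of_fixes (σ : (AlgebraicClosure ℚ) ≃ₐ[ℚ] (AlgebraicClosure ℚ)) (ζ : (AlgebraicClosure ℚ)) (hζ : IsPrimitiveRoot ζ p)
    (hσ : σ ζ = ζ) : cycloChar p σ = 1 := by
  have h : ((cycloChar p σ : (ZMod p)ˣ) : ZMod p) = ((1 : ℕ) : ZMod p) := by
    refine cycloChar_eq_of_forall p σ 1 (fun η hη => ?_)
    obtain ⟨i, -, rfl⟩ := hζ.eq_pow_of_pow_eq_one hη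
    rw [pow_one, map_pow, hσ]
  ext
  simpa using h

/-- **(CYC4')** finite level, in the prelude's shape: there is a finite extension `F` of `ℚ` inside
`(AlgebraicClosure ℚ)` such that `cycloChar p` is trivial on `F.fixingSubgroup`. -/
theorem exists_finiteDimensional_cycloChar_eq_one :
    ∃ F : IntermediateField ℚ (AlgebraicClosure ℚ), FiniteDimensional ℚ F ∧
      ∀ σ ∈ F.fixingSubgroup, cycloChar p σ = 1 := by
  haveI : NeZero p := ⟨(Fact.out : p.Prime).ne_zero⟩
  obtain ⟨ζ, hζ⟩ : ∃ ζ : (AlgebraicClosure ℚ), IsPrimitiveRoot ζ p :=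
    HasEnoughRootsOfUnity.exists_primitiveRoot (AlgebraicClosure ℚ) p
  refine ⟨IntermediateField.adjoin ℚ {ζ}, ?_, fun σ hσ => ?_⟩
  · exact IntermediateField.adjoin.finiteDimensional (hζ.isIntegral (NeZero.pos p)).tower_top
  · refine cycloChar_eq_one_of_fixes p σ ζ hζ ?_
    rw [IntermediateField.mem_fixingSubgroup_iff] at hσ
    exact hσ ζ (IntermediateField.mem_adjoin_simple_self ℚ ζ)

end CycloChar

end Fermat.Agent.GJ.Cyc
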