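/-
GATE-J / J4-CYC part 2 (helper8): the `p`-adic cyclotomic character `cyclotomicCharacter ℚ̄ p` at
Frobenius lifts, on inertia, and its finite levels mod `p ^ n` (input of J4-TATE / S30).
-/
import Fermat.Agent.GJ.Cyc.FrobCyc

set_option autoImplicit false

namespace Fermat.Agent.GJ.Cyc

variable (p : ℕ) [Fact p.Prime]

/-- uniqueness for the `p`-adic cyclotomic character: if `σ ζ = ζ ^ c` for all `p`-power roots of
unity then `χ_cyc σ = c`. -/
theorem cyclotomicCharacter_eq_of_forall (σ : (AlgebraicClosure ℚ) ≃+* (AlgebraicClosure ℚ)) (c : ℕ)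
    (h : ∀ (n : ℕ) (ζ : (AlgebraicClosure ℚ)), ζ ^ (p ^ n) = 1 → σ ζ = ζ ^ c) :
    ((cyclotomicCharacter (AlgebraicClosure ℚ) p σ : ℤ_[p]ˣ) : ℤ_[p]) = (c : ℤ_[p]) := by
  rw [← PadicInt.ext_of_toZModPow]
  intro n
  rw [cyclotomicCharacter.toZModPow, map_natCast]
  symm
  refine modularCyclotomicCharacter.unique (AlgebraicClosure ℚ)
    (HasEnoughRootsOfUnity.natCard_rootsOfUnity (AlgebraicClosure ℚ) (p ^ n)) σ
    (c := (c : ZMod (p ^ n))) ?_
  · intro t ht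
    have ht' : (t : (AlgebraicClosure ℚ)) ^ (p ^ n) = 1 := by
      have := (mem_rootsOfUnity _ _).mp ht
      rw [← Units.val_pow_eq_pow_val, this, Units.val_one]
    have h1 := h n (t : (AlgebraicClosure ℚ)) ht'
    have h2 : (t : (AlgebraicClosure ℚ)) ^ (c : ZMod (p ^ n)).val = (t : (AlgebraicClosure ℚ)) ^ c := by
      rw [ZMod.val_natCast]
      conv_rhs => rw [← Nat.mod_add_div c (p ^ n)]
      rw [pow_add, pow_mul, ht', one_pow, mul_one]
    rw [h2]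
    exact h1

/-- **(CYC5a)** the `p`-adic cyclotomic character has value `l` at Frobenius lifts at `l ≠ p`. -/
theorem cyclotomicCharacter_frob (A : ValuationSubring (AlgebraicClosure ℚ)) (l : ℕ) (hl : l.Prime)
    (hA : A.LiesOverPrime l) (hlp : l ≠ p) (σ : (AlgebraicClosure ℚ) ≃ₐ[ℚ] (AlgebraicClosure ℚ))
    (hσ : A.IsFrobeniusAt σ l) :
    ((cyclotomicCharacter (AlgebraicClosure ℚ) p
      (σ : (AlgebraicClosure ℚ) ≃+* (AlgebraicClosure ℚ)) : ℤ_[p]ˣ) : ℤ_[p]) = (l : ℤ_[p]) := by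
  refine cyclotomicCharacter_eq_of_forall p _ l (fun n ζ hζ => ?_)
  refine frob_rootOfUnity A l hl hA σ hσ (p ^ n) ?_ ζ hζ
  intro hdvd
  exact hlp ((Nat.prime_dvd_prime_iff_eq hl (Fact.out : p.Prime)).mp (hl.dvd_of_dvd_pow hdvd))

/-- **(CYC5b)** the `p`-adic cyclotomic character is trivial on inertia at `l ≠ p`. -/
theorem cyclotomicCharacter_inertia (A : ValuationSubring (AlgebraicClosure ℚ)) (l : ℕ)
    (hl : l.Prime) (hA : A.LiesOverPrime l) (hlp : l ≠ p)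
    (σ : (AlgebraicClosure ℚ) ≃ₐ[ℚ] (AlgebraicClosure ℚ)) (hσ : σ ∈ A.inertiaSubgroupIn ℚ) :
    cyclotomicCharacter (AlgebraicClosure ℚ) p
      (σ : (AlgebraicClosure ℚ) ≃+* (AlgebraicClosure ℚ)) = 1 := by
  have h : ((cyclotomicCharacter (AlgebraicClosure ℚ) p
      (σ : (AlgebraicClosure ℚ) ≃+* (AlgebraicClosure ℚ)) : ℤ_[p]ˣ) : ℤ_[p]) = ((1 : ℕ) : ℤ_[p]) := by
    refine cyclotomicCharacter_eq_of_forall p _ 1 (fun n ζ hζ => ?_)
    rw [pow_one]
    refine inertia_rootOfUnity A l hl hA σ hσ (p ^ n) ?_ ζ hζ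
    intro hdvd
    exact hlp ((Nat.prime_dvd_prime_iff_eq hl (Fact.out : p.Prime)).mp (hl.dvd_of_dvd_pow hdvd))
  ext
  simpa using h

/-- **(CYC5c)** finite level mod `p ^ n`: if `σ` fixes a primitive `p ^ n`-th root of unity then
`χ_cyc σ ≡ 1 mod p ^ n`. -/
theorem toZModPow_cyclotomicCharacter_eq_one_of_fixes (n : ℕ)
    (σ : (AlgebraicClosure ℚ) ≃ₐ[ℚ] (AlgebraicClosure ℚ)) (ζ : (AlgebraicClosure ℚ))
    (hζ : IsPrimitiveRoot ζ (p ^ n)) (hσ : σ ζ = ζ) :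
    PadicInt.toZModPow n ((cyclotomicCharacter (AlgebraicClosure ℚ) p
      (σ : (AlgebraicClosure ℚ) ≃+* (AlgebraicClosure ℚ)) : ℤ_[p]ˣ) : ℤ_[p]) = 1 := by
  rw [cyclotomicCharacter.toZModPow]
  symm
  have := modularCyclotomicCharacter.unique (AlgebraicClosure ℚ)
    (HasEnoughRootsOfUnity.natCard_rootsOfUnity (AlgebraicClosure ℚ) (p ^ n))
    (σ : (AlgebraicClosure ℚ) ≃+* (AlgebraicClosure ℚ)) (c := (1 : ZMod (p ^ n))) ?_
  · exact this
  · intro t ht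
    have ht' : (t : (AlgebraicClosure ℚ)) ^ (p ^ n) = 1 := by
      have := (mem_rootsOfUnity _ _).mp ht
      rw [← Units.val_pow_eq_pow_val, this, Units.val_one]
    obtain ⟨i, -, hi⟩ := hζ.eq_pow_of_pow_eq_one ht'
    have hfix : σ (t : (AlgebraicClosure ℚ)) = (t : (AlgebraicClosure ℚ)) := by
      rw [← hi, map_pow, hσ]
    have h2 : (t : (AlgebraicClosure ℚ)) ^ (1 : ZMod (p ^ n)).val = (t : (AlgebraicClosure ℚ)) := by
      rcases Nat.eq_zero_or_pos n with hn | hn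
      · subst hn
        have : (t : (AlgebraicClosure ℚ)) = 1 := by simpa using ht'
        rw [this, one_pow]
      · have : Fact (1 < p ^ n) := ⟨Nat.one_lt_pow hn.ne' (Fact.out : p.Prime).one_lt⟩
        rw [ZMod.val_one, pow_one]
    rw [h2]
    exact hfix

/-- **(CYC5c')** finite level mod `p ^ n`, prelude shape. -/
theorem exists_finiteDimensional_toZModPow_cyclotomicCharacter_eq_one (n : ℕ) :
    ∃ F : IntermediateField ℚ (AlgebraicClosure ℚ), FiniteDimensional ℚ F ∧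
      ∀ σ ∈ F.fixingSubgroup, PadicInt.toZModPow n
        ((cyclotomicCharacter (AlgebraicClosure ℚ) p
          (σ : (AlgebraicClosure ℚ) ≃+* (AlgebraicClosure ℚ)) : ℤ_[p]ˣ) : ℤ_[p]) = 1 := by
  haveI : NeZero (p ^ n) := ⟨pow_ne_zero n (Fact.out : p.Prime).ne_zero⟩
  obtain ⟨ζ, hζ⟩ : ∃ ζ : (AlgebraicClosure ℚ), IsPrimitiveRoot ζ (p ^ n) :=
    HasEnoughRootsOfUnity.exists_primitiveRoot (AlgebraicClosure ℚ) (p ^ n)
  refine ⟨IntermediateField.adjoin ℚ {ζ}, ?_, fun σ hσ => ?_⟩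
  · exact IntermediateField.adjoin.finiteDimensional
      (hζ.isIntegral (NeZero.pos (p ^ n))).tower_top
  · refine toZModPow_cyclotomicCharacter_eq_one_of_fixes p n σ ζ hζ ?_
    rw [IntermediateField.mem_fixingSubgroup_iff] at hσ
    exact hσ ζ (IntermediateField.mem_adjoin_simple_self ℚ ζ)

end Fermat.Agent.GJ.Cyc
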