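/-
GATE-J / TATE-CYC (helper8): the `p`-adic cyclotomic character with values in an arbitrary
`𝔪`-adically complete local ring `𝒪` with `p ∈ 𝔪` (input of J4-TATE / S30, S31):
canonical ring hom `ℤ_[p] →+* 𝒪`, `adicCyc : G_ℚ →* 𝒪ˣ`, value `l` at Frobenius lifts at `l ≠ p`,
trivial on inertia at `l ≠ p`, value `-1` at complex conjugation, finite levels mod `p ^ n`.
-/
import Fermat.Agent.GJ.Cyc.FrobCycAdic
import Fermat.Prelude.Def_GaloisRep_ComplexConjugation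

set_option autoImplicit false

namespace Fermat.Agent.GJ.Cyc

open IsLocalRing

/-- complex conjugation inverts roots of unity. -/
theorem complexConjugation_rootOfUnity (m : ℕ) (hm : m ≠ 0) (ζ : AlgebraicClosure ℚ)
    (hζ : ζ ^ m = 1) : complexConjugation ζ = ζ⁻¹ := by
  apply complexEmbedding.toRingHom.injective
  show complexEmbedding (complexConjugation ζ) = complexEmbedding ζ⁻¹
  rw [complexEmbedding_complexConjugation, map_inv₀]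
  have h1 : (complexEmbedding ζ) ^ m = 1 := by rw [← map_pow, hζ, map_one]
  exact (Complex.inv_eq_conj (Complex.norm_eq_one_of_pow_eq_one h1 hm)).symm

section PadicChar

variable (p : ℕ) [Fact p.Prime]

/-- **(CYC5d)** the `p`-adic cyclotomic character has value `-1` at complex conjugation. -/
theorem cyclotomicCharacter_complexConjugation :
    cyclotomicCharacter (AlgebraicClosure ℚ) p
      (complexConjugation : (AlgebraicClosure ℚ) ≃+* (AlgebraicClosure ℚ)) = -1 := by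
  ext
  rw [Units.val_neg, Units.val_one, ← PadicInt.ext_of_toZModPow]
  intro n
  rw [cyclotomicCharacter.toZModPow, map_neg, map_one]
  symm
  refine modularCyclotomicCharacter.unique (AlgebraicClosure ℚ)
    (HasEnoughRootsOfUnity.natCard_rootsOfUnity (AlgebraicClosure ℚ) (p ^ n))
    (complexConjugation : (AlgebraicClosure ℚ) ≃+* (AlgebraicClosure ℚ))
    (c := (-1 : ZMod (p ^ n))) ?_
  intro t ht
  have hpn : p ^ n ≠ 0 := pow_ne_zero n (Fact.out : p.Prime).ne_zero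
  have : NeZero (p ^ n) := ⟨hpn⟩
  have ht' : (t : (AlgebraicClosure ℚ)) ^ (p ^ n) = 1 := by
    have := (mem_rootsOfUnity _ _).mp ht
    rw [← Units.val_pow_eq_pow_val, this, Units.val_one]
  have h1 : complexConjugation (t : AlgebraicClosure ℚ) = (t : AlgebraicClosure ℚ)⁻¹ :=
    complexConjugation_rootOfUnity (p ^ n) hpn _ ht'
  have h2 : (t : (AlgebraicClosure ℚ)) ^ (-1 : ZMod (p ^ n)).val = (t : AlgebraicClosure ℚ)⁻¹ := by
    apply eq_inv_of_mul_eq_one_left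
    rw [← pow_succ]
    have hd : p ^ n ∣ (-1 : ZMod (p ^ n)).val + 1 := by
      rw [← ZMod.natCast_eq_zero_iff, Nat.cast_add, ZMod.natCast_zmod_val, Nat.cast_one,
        neg_add_cancel]
    obtain ⟨k, hk⟩ := hd
    rw [hk, pow_mul, ht', one_pow]
  rw [h2]
  exact h1

/-- level-`n` uniqueness: if `σ ζ = ζ ^ c` on `μ_{p ^ n}` then `χ_cyc σ ≡ c mod p ^ n`. -/
theorem toZModPow_cyclotomicCharacter_eq_of_forall (n : ℕ)
    (σ : (AlgebraicClosure ℚ) ≃+* (AlgebraicClosure ℚ)) (c : ℕ)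
    (h : ∀ ζ : (AlgebraicClosure ℚ), ζ ^ (p ^ n) = 1 → σ ζ = ζ ^ c) :
    PadicInt.toZModPow n ((cyclotomicCharacter (AlgebraicClosure ℚ) p σ : ℤ_[p]ˣ) : ℤ_[p])
      = (c : ZMod (p ^ n)) := by
  rw [cyclotomicCharacter.toZModPow]
  symm
  refine modularCyclotomicCharacter.unique (AlgebraicClosure ℚ)
    (HasEnoughRootsOfUnity.natCard_rootsOfUnity (AlgebraicClosure ℚ) (p ^ n)) σ
    (c := (c : ZMod (p ^ n))) ?_
  intro t ht
  have ht' : (t : (AlgebraicClosure ℚ)) ^ (p ^ n) = 1 := by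
    have := (mem_rootsOfUnity _ _).mp ht
    rw [← Units.val_pow_eq_pow_val, this, Units.val_one]
  have h1 := h (t : (AlgebraicClosure ℚ)) ht'
  have h2 : (t : (AlgebraicClosure ℚ)) ^ (c : ZMod (p ^ n)).val = (t : (AlgebraicClosure ℚ)) ^ c := by
    rw [ZMod.val_natCast]
    conv_rhs => rw [← Nat.mod_add_div c (p ^ n)]
    rw [pow_add, pow_mul, ht', one_pow, mul_one]
  rw [h2]
  exact h1

/-- any ring hom out of `ℤ_[p]` into a ring where `p ^ n = 0` is given by `appr`. -/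
theorem padicInt_ringHom_eq_appr {R : Type*} [CommRing R] (g : ℤ_[p] →+* R) (n : ℕ)
    (hn : (p : R) ^ n = 0) (x : ℤ_[p]) : g x = ((x.appr n : ℕ) : R) := by
  have h := PadicInt.appr_spec n x
  rw [Ideal.mem_span_singleton] at h
  obtain ⟨y, hy⟩ := h
  have hx : x = (x.appr n : ℤ_[p]) + (p : ℤ_[p]) ^ n * y := by rw [← hy]; ring
  conv_lhs => rw [hx]
  rw [map_add, map_mul, map_pow, map_natCast, map_natCast, hn, zero_mul, add_zero]

theorem padicInt_ringHom_ext {R : Type*} [CommRing R] (g₁ g₂ : ℤ_[p] →+* R) (n : ℕ)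
    (hn : (p : R) ^ n = 0) : g₁ = g₂ := by
  ext x
  rw [padicInt_ringHom_eq_appr p g₁ n hn, padicInt_ringHom_eq_appr p g₂ n hn]

/-- a ring hom out of `ℤ_[p]` respects congruences mod `p ^ n`. -/
theorem padicInt_ringHom_sub_mem_span {R : Type*} [CommRing R] (g : ℤ_[p] →+* R) (n : ℕ)
    (x y : ℤ_[p]) (h : PadicInt.toZModPow n x = PadicInt.toZModPow n y) :
    g x - g y ∈ Ideal.span {(p : R) ^ n} := by
  have hk : x - y ∈ RingHom.ker (PadicInt.toZModPow (p := p) n) := by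
    rw [RingHom.mem_ker, map_sub, h, sub_self]
  rw [PadicInt.ker_toZModPow, Ideal.mem_span_singleton] at hk
  obtain ⟨z, hz⟩ := hk
  rw [Ideal.mem_span_singleton]
  refine ⟨g z, ?_⟩
  rw [← map_sub, hz, map_mul, map_pow, map_natCast]

end PadicChar

section Adic

variable (p : ℕ) [Fact p.Prime] (𝒪 : Type*) [CommRing 𝒪] [IsLocalRing 𝒪]

omit [Fact p.Prime] in
theorem natCast_pow_quot_eq_zero (hp : (p : 𝒪) ∈ maximalIdeal 𝒪) (n : ℕ) :
    ((p : 𝒪 ⧸ maximalIdeal 𝒪 ^ n)) ^ n = 0 := by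
  have : ((p : 𝒪 ⧸ maximalIdeal 𝒪 ^ n)) ^ n =
      Ideal.Quotient.mk (maximalIdeal 𝒪 ^ n) ((p : 𝒪) ^ n) := by
    rw [map_pow, map_natCast]
  rw [this, Ideal.Quotient.eq_zero_iff_mem]
  exact Ideal.pow_mem_pow hp n

omit [Fact p.Prime] in
theorem span_natCast_pow_le (hp : (p : 𝒪) ∈ maximalIdeal 𝒪) (n : ℕ) :
    Ideal.span {(p : 𝒪) ^ n} ≤ maximalIdeal 𝒪 ^ n := by
  rw [Ideal.span_singleton_le_iff_mem]
  exact Ideal.pow_mem_pow hp n

/-- level maps `ℤ_[p] → 𝒪 ⧸ 𝔪 ^ n`. -/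
noncomputable def padicIntToQuot (hp : (p : 𝒪) ∈ maximalIdeal 𝒪) (n : ℕ) :
    ℤ_[p] →+* 𝒪 ⧸ maximalIdeal 𝒪 ^ n :=
  (ZMod.castHom (show ringChar (𝒪 ⧸ maximalIdeal 𝒪 ^ n) ∣ p ^ n from
      ringChar.dvd (by rw [Nat.cast_pow]; exact natCast_pow_quot_eq_zero p 𝒪 hp n))
    (𝒪 ⧸ maximalIdeal 𝒪 ^ n)).comp (PadicInt.toZModPow n)

variable [IsAdicComplete (maximalIdeal 𝒪) 𝒪]

/-- the canonical ring hom `ℤ_[p] → 𝒪` for an `𝔪`-adically complete local ring with `p ∈ 𝔪`. -/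
noncomputable def padicIntToAdic (hp : (p : 𝒪) ∈ maximalIdeal 𝒪) : ℤ_[p] →+* 𝒪 :=
  IsAdicComplete.liftRingHom (maximalIdeal 𝒪) (padicIntToQuot p 𝒪 hp)
    (fun {m _} _ => padicInt_ringHom_ext p _ _ m (natCast_pow_quot_eq_zero p 𝒪 hp m))

variable (hp : (p : 𝒪) ∈ maximalIdeal 𝒪)

/-- **TATE-CYC**: the `p`-adic cyclotomic character with values in `𝒪ˣ`. -/
noncomputable def adicCyc :
    (AlgebraicClosure ℚ ≃ₐ[ℚ] AlgebraicClosure ℚ) →* 𝒪ˣ where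
  toFun σ := Units.map (padicIntToAdic p 𝒪 hp).toMonoidHom
    (cyclotomicCharacter (AlgebraicClosure ℚ) p (σ : AlgebraicClosure ℚ ≃+* AlgebraicClosure ℚ))
  map_one' := by
    have h : ((1 : AlgebraicClosure ℚ ≃ₐ[ℚ] AlgebraicClosure ℚ) :
        AlgebraicClosure ℚ ≃+* AlgebraicClosure ℚ) = 1 := rfl
    rw [h, map_one, map_one]
  map_mul' σ τ := by
    have h : ((σ * τ : AlgebraicClosure ℚ ≃ₐ[ℚ] AlgebraicClosure ℚ) :
        AlgebraicClosure ℚ ≃+* AlgebraicClosure ℚ) =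
        (σ : AlgebraicClosure ℚ ≃+* AlgebraicClosure ℚ) *
          (τ : AlgebraicClosure ℚ ≃+* AlgebraicClosure ℚ) := rfl
    rw [h, map_mul, map_mul]

theorem adicCyc_apply (σ : AlgebraicClosure ℚ ≃ₐ[ℚ] AlgebraicClosure ℚ) :
    ((adicCyc p 𝒪 hp σ : 𝒪ˣ) : 𝒪) = padicIntToAdic p 𝒪 hp
      ((cyclotomicCharacter (AlgebraicClosure ℚ) p
        (σ : AlgebraicClosure ℚ ≃+* AlgebraicClosure ℚ) : ℤ_[p]ˣ) : ℤ_[p]) := rfl

/-- value `l` at Frobenius lifts at `l ≠ p`. -/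
theorem adicCyc_frob (A : ValuationSubring (AlgebraicClosure ℚ)) (l : ℕ) (hl : l.Prime)
    (hA : A.LiesOverPrime l) (hlp : l ≠ p) (σ : (AlgebraicClosure ℚ) ≃ₐ[ℚ] (AlgebraicClosure ℚ))
    (hσ : A.IsFrobeniusAt σ l) : ((adicCyc p 𝒪 hp σ : 𝒪ˣ) : 𝒪) = (l : 𝒪) := by
  rw [adicCyc_apply, cyclotomicCharacter_frob p A l hl hA hlp σ hσ, map_natCast]

/-- trivial on inertia at `l ≠ p`. -/
theorem adicCyc_inertia (A : ValuationSubring (AlgebraicClosure ℚ)) (l : ℕ)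
    (hl : l.Prime) (hA : A.LiesOverPrime l) (hlp : l ≠ p)
    (σ : (AlgebraicClosure ℚ) ≃ₐ[ℚ] (AlgebraicClosure ℚ)) (hσ : σ ∈ A.inertiaSubgroupIn ℚ) :
    adicCyc p 𝒪 hp σ = 1 := by
  ext
  rw [adicCyc_apply, cyclotomicCharacter_inertia p A l hl hA hlp σ hσ, Units.val_one, map_one,
    Units.val_one]

/-- value `-1` at complex conjugation. -/
theorem adicCyc_complexConjugation : adicCyc p 𝒪 hp complexConjugation = -1 := by
  ext
  rw [adicCyc_apply, cyclotomicCharacter_complexConjugation p, Units.val_neg, Units.val_one,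
    map_neg, map_one, Units.val_neg, Units.val_one]

/-- congruence at level `p ^ n`: if `σ ζ = ζ ^ c` on `μ_{p ^ n}` then `d σ ≡ c mod p ^ n`. -/
theorem adicCyc_sub_natCast_mem_span (n : ℕ)
    (σ : (AlgebraicClosure ℚ) ≃ₐ[ℚ] (AlgebraicClosure ℚ)) (c : ℕ)
    (h : ∀ ζ : (AlgebraicClosure ℚ), ζ ^ (p ^ n) = 1 → σ ζ = ζ ^ c) :
    ((adicCyc p 𝒪 hp σ : 𝒪ˣ) : 𝒪) - (c : 𝒪) ∈ Ideal.span {(p : 𝒪) ^ n} := by
  have h1 := toZModPow_cyclotomicCharacter_eq_of_forall p n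
    (σ : AlgebraicClosure ℚ ≃+* AlgebraicClosure ℚ) c h
  have h2 := padicInt_ringHom_sub_mem_span p (padicIntToAdic p 𝒪 hp) n _ (c : ℤ_[p])
    (by rw [h1, map_natCast])
  rwa [map_natCast] at h2

/-- finite level: if `σ` fixes a primitive `p ^ n`-th root of unity then `d σ ≡ 1 mod p ^ n`. -/
theorem adicCyc_sub_one_mem_span_of_fixes (n : ℕ)
    (σ : (AlgebraicClosure ℚ) ≃ₐ[ℚ] (AlgebraicClosure ℚ)) (ζ : (AlgebraicClosure ℚ))
    (hζ : IsPrimitiveRoot ζ (p ^ n)) (hσ : σ ζ = ζ) :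
    ((adicCyc p 𝒪 hp σ : 𝒪ˣ) : 𝒪) - 1 ∈ Ideal.span {(p : 𝒪) ^ n} := by
  have h1 := toZModPow_cyclotomicCharacter_eq_one_of_fixes p n σ ζ hζ hσ
  have h2 := padicInt_ringHom_sub_mem_span p (padicIntToAdic p 𝒪 hp) n _ (1 : ℤ_[p])
    (by rw [h1, map_one])
  rwa [map_one] at h2

/-- congruent Galois elements (same action on `μ_{p ^ n}`) have congruent values. -/
theorem adicCyc_sub_mem_span_of_fixes (n : ℕ)
    (σ τ : (AlgebraicClosure ℚ) ≃ₐ[ℚ] (AlgebraicClosure ℚ)) (ζ : (AlgebraicClosure ℚ))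
    (hζ : IsPrimitiveRoot ζ (p ^ n)) (h : σ ζ = τ ζ) :
    ((adicCyc p 𝒪 hp σ : 𝒪ˣ) : 𝒪) - ((adicCyc p 𝒪 hp τ : 𝒪ˣ) : 𝒪) ∈ Ideal.span {(p : 𝒪) ^ n} := by
  have hfix : (τ⁻¹ * σ) ζ = ζ := by
    rw [AlgEquiv.mul_apply, h]
    exact τ.symm_apply_apply ζ
  have h1 := adicCyc_sub_one_mem_span_of_fixes p 𝒪 hp n (τ⁻¹ * σ) ζ hζ hfix
  have h2 : ((adicCyc p 𝒪 hp σ : 𝒪ˣ) : 𝒪) - ((adicCyc p 𝒪 hp τ : 𝒪ˣ) : 𝒪) =
      ((adicCyc p 𝒪 hp τ : 𝒪ˣ) : 𝒪) * (((adicCyc p 𝒪 hp (τ⁻¹ * σ) : 𝒪ˣ) : 𝒪) - 1) := by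
    rw [map_mul, map_inv, Units.val_mul, mul_sub, ← mul_assoc, Units.mul_inv, one_mul, mul_one]
  rw [h2]
  exact Ideal.mul_mem_left _ _ h1

/-- **continuity of `adicCyc`**, prelude shape (`p ^ n` form). -/
theorem adicCyc_continuous_span (n : ℕ) :
    ∃ L : IntermediateField ℚ (AlgebraicClosure ℚ), FiniteDimensional ℚ L ∧
      ∀ σ : AlgebraicClosure ℚ ≃ₐ[ℚ] AlgebraicClosure ℚ, (∀ x ∈ L, σ x = x) →
        ((adicCyc p 𝒪 hp σ : 𝒪ˣ) : 𝒪) - 1 ∈ Ideal.span {(p : 𝒪) ^ n} := by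
  have : NeZero (p ^ n) := ⟨pow_ne_zero n (Fact.out : p.Prime).ne_zero⟩
  obtain ⟨ζ, hζ⟩ : ∃ ζ : (AlgebraicClosure ℚ), IsPrimitiveRoot ζ (p ^ n) :=
    HasEnoughRootsOfUnity.exists_primitiveRoot (AlgebraicClosure ℚ) (p ^ n)
  refine ⟨IntermediateField.adjoin ℚ {ζ}, ?_, fun σ hσ => ?_⟩
  · exact IntermediateField.adjoin.finiteDimensional
      (hζ.isIntegral (NeZero.pos (p ^ n))).tower_top
  · exact adicCyc_sub_one_mem_span_of_fixes p 𝒪 hp n σ ζ hζ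
      (hσ ζ (IntermediateField.mem_adjoin_simple_self ℚ ζ))

/-- **continuity of `adicCyc`**, prelude shape (`𝔪 ^ n` form). -/
theorem adicCyc_continuous (n : ℕ) :
    ∃ L : IntermediateField ℚ (AlgebraicClosure ℚ), FiniteDimensional ℚ L ∧
      ∀ σ : AlgebraicClosure ℚ ≃ₐ[ℚ] AlgebraicClosure ℚ, (∀ x ∈ L, σ x = x) →
        ((adicCyc p 𝒪 hp σ : 𝒪ˣ) : 𝒪) - 1 ∈ maximalIdeal 𝒪 ^ n := by
  obtain ⟨L, hL, h⟩ := adicCyc_continuous_span p 𝒪 hp n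
  exact ⟨L, hL, fun σ hσ => span_natCast_pow_le p 𝒪 hp n (h σ hσ)⟩

end Adic

end Fermat.Agent.GJ.Cyc
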